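/-
S58-PREP row 370 (FT-GEN), shadow by helper63: the PRODUCT formula
`x(P+Q) · x(P−Q) = prodNum (x₁, x₂) / (x₁ − x₂)²` for points of a Weierstrass curve over a field
(the companion of `Lib.ECBiquad.xOf_add_add_xOf_sub`), and the packaged pair of relations in the
`F0 / F1 / F2` shape consumed by `Lib.ECBiquad.ht_add_ht_of_rel`.
-/
import Fermat.Agent.Lib.ECBiquad.MulSeq
import Fermat.Agent.Lib.ECBiquad.PointFormulas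

set_option autoImplicit false

namespace Fermat.Agent.S58.FT.GenB

open WeierstrassCurve WeierstrassCurve.Affine Fermat.Agent.Lib.ECBiquad

variable {K : Type*} [Field K] [DecidableEq K] (W : WeierstrassCurve K)

/-- The product formula: `x(P+Q) · x(P−Q) = prodNum(x₁,x₂) / (x₁ − x₂)²`. -/
theorem xOf_add_mul_xOf_sub {P Q : W.toAffine.Point} (hP : P ≠ 0) (hQ : Q ≠ 0)
    (hx : xOf W P ≠ xOf W Q) :
    xOf W (P + Q) * xOf W (P - Q) =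
      prodNum W (xOf W P) (xOf W Q) / (xOf W P - xOf W Q) ^ 2 := by
  cases P with
  | zero => exact absurd rfl hP
  | some x₁ y₁ h₁ =>
    cases Q with
    | zero => exact absurd rfl hQ
    | some x₂ y₂ h₂ =>
      simp only [xOf_some] at hx ⊢
      have hx' : x₁ - x₂ ≠ 0 := sub_ne_zero.mpr hx
      rw [sub_eq_add_neg, Affine.Point.neg_some, Affine.Point.add_of_X_ne hx,
        Affine.Point.add_of_X_ne hx]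
      simp only [xOf_some]
      rw [Affine.slope_of_X_ne hx, Affine.slope_of_X_ne hx]
      have e₁ := (Affine.equation_iff _ _).mp h₁.1
      have e₂ := (Affine.equation_iff _ _).mp h₂.1
      simp only [Affine.addX, Affine.negY, prodNum, b₄, b₆, b₈]
      have key : ((y₁ - y₂) ^ 2 + W.a₁ * (y₁ - y₂) * (x₁ - x₂) -
            (W.a₂ + x₁ + x₂) * (x₁ - x₂) ^ 2) *
          ((y₁ - (-y₂ - W.a₁ * x₂ - W.a₃)) ^ 2 +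
            W.a₁ * (y₁ - (-y₂ - W.a₁ * x₂ - W.a₃)) * (x₁ - x₂) -
            (W.a₂ + x₁ + x₂) * (x₁ - x₂) ^ 2) =
          ((x₁ * x₂) ^ 2 - (2 * W.a₄ + W.a₁ * W.a₃) * (x₁ * x₂) -
            (W.a₃ ^ 2 + 4 * W.a₆) * (x₁ + x₂) -
            (W.a₁ ^ 2 * W.a₆ + 4 * W.a₂ * W.a₆ - W.a₁ * W.a₃ * W.a₄ + W.a₂ * W.a₃ ^ 2 -
              W.a₄ ^ 2)) * (x₁ - x₂) ^ 2 := by
        linear_combination
          (-x₁ ^ 3 + 2 * x₁ ^ 2 * x₂ - x₁ ^ 2 * W.a₂ + 2 * x₁ * x₂ ^ 2 + x₁ * x₂ * W.a₁ ^ 2 +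
            4 * x₁ * x₂ * W.a₂ + x₁ * y₁ * W.a₁ + x₁ * W.a₁ * W.a₃ + x₁ * W.a₄ - 2 * x₂ ^ 3 -
            x₂ ^ 2 * W.a₁ ^ 2 - 2 * x₂ ^ 2 * W.a₂ - 2 * x₂ * y₂ * W.a₁ - x₂ * W.a₁ * W.a₃ +
            y₁ ^ 2 + y₁ * W.a₃ - 2 * y₂ ^ 2 - 2 * y₂ * W.a₃ + W.a₆) * e₁ +
          (-4 * x₁ ^ 3 + 2 * x₁ ^ 2 * x₂ - x₁ ^ 2 * W.a₁ ^ 2 - 4 * x₁ ^ 2 * W.a₂ +
            2 * x₁ * x₂ ^ 2 + x₁ * x₂ * W.a₁ ^ 2 + 4 * x₁ * x₂ * W.a₂ - x₁ * W.a₁ * W.a₃ -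
            2 * x₁ * W.a₄ - x₂ ^ 3 - x₂ ^ 2 * W.a₂ + x₂ * y₂ * W.a₁ + x₂ * W.a₁ * W.a₃ +
            x₂ * W.a₄ + y₂ ^ 2 + y₂ * W.a₃ - W.a₆) * e₂
      have hpl : ((y₁ - y₂) / (x₁ - x₂)) ^ 2 + W.a₁ * ((y₁ - y₂) / (x₁ - x₂)) - W.a₂ - x₁ - x₂ =
          ((y₁ - y₂) ^ 2 + W.a₁ * (y₁ - y₂) * (x₁ - x₂) -
            (W.a₂ + x₁ + x₂) * (x₁ - x₂) ^ 2) / (x₁ - x₂) ^ 2 := by
        field_simp
        ring
      have hmi : ((y₁ - (-y₂ - W.a₁ * x₂ - W.a₃)) / (x₁ - x₂)) ^ 2 +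
            W.a₁ * ((y₁ - (-y₂ - W.a₁ * x₂ - W.a₃)) / (x₁ - x₂)) - W.a₂ - x₁ - x₂ =
          ((y₁ - (-y₂ - W.a₁ * x₂ - W.a₃)) ^ 2 +
            W.a₁ * (y₁ - (-y₂ - W.a₁ * x₂ - W.a₃)) * (x₁ - x₂) -
            (W.a₂ + x₁ + x₂) * (x₁ - x₂) ^ 2) / (x₁ - x₂) ^ 2 := by
        field_simp
        ring
      have hfin : (((y₁ - y₂) / (x₁ - x₂)) ^ 2 + W.a₁ * ((y₁ - y₂) / (x₁ - x₂)) - W.a₂ - x₁ - x₂) *
          (((y₁ - (-y₂ - W.a₁ * x₂ - W.a₃)) / (x₁ - x₂)) ^ 2 +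
            W.a₁ * ((y₁ - (-y₂ - W.a₁ * x₂ - W.a₃)) / (x₁ - x₂)) - W.a₂ - x₁ - x₂) =
          ((x₁ * x₂) ^ 2 - (2 * W.a₄ + W.a₁ * W.a₃) * (x₁ * x₂) -
            (W.a₃ ^ 2 + 4 * W.a₆) * (x₁ + x₂) -
            (W.a₁ ^ 2 * W.a₆ + 4 * W.a₂ * W.a₆ - W.a₁ * W.a₃ * W.a₄ + W.a₂ * W.a₃ ^ 2 -
              W.a₄ ^ 2)) / (x₁ - x₂) ^ 2 := by
        rw [hpl, hmi, div_mul_div_comm, key]
        field_simp
      exact hfin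

/-- The two relations of `ht_add_ht_of_rel`, over the field of definition of the points:
with `x₁ = x(P)`, `x₂ = x(Q)`, `x₃ = x(P+Q)`, `x₄ = x(P−Q)`:
`x₃ x₄ (x₁−x₂)² = F0`, `(x₃ + x₄)(x₁−x₂)² = F1`. -/
theorem rel_of_points {P Q : W.toAffine.Point} (hP : P ≠ 0) (hQ : Q ≠ 0)
    (hx : xOf W P ≠ xOf W Q) :
    xOf W (P + Q) * xOf W (P - Q) * F2 (xOf W P * xOf W Q) (xOf W P + xOf W Q) 1 =
        F0 W.b₄ W.b₆ W.b₈ (xOf W P * xOf W Q) (xOf W P + xOf W Q) 1 ∧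
      (xOf W (P + Q) + xOf W (P - Q)) * F2 (xOf W P * xOf W Q) (xOf W P + xOf W Q) 1 =
        F1 W.b₂ W.b₄ W.b₆ (xOf W P * xOf W Q) (xOf W P + xOf W Q) 1 := by
  have hx' : (xOf W P - xOf W Q) ^ 2 ≠ 0 := pow_ne_zero 2 (sub_ne_zero.mpr hx)
  rw [F2_eq_sq, xOf_add_mul_xOf_sub W hP hQ hx, xOf_add_add_xOf_sub W hP hQ hx,
    div_mul_cancel₀ _ hx', div_mul_cancel₀ _ hx']
  constructor
  · simp only [prodNum, F0]; ring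
  · simp only [sumNum, F1]; ring

end Fermat.Agent.S58.FT.GenB
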