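/-
S58-PREP row 370 (FT-GEN), shadow by helper63: the abstract parallelogram law.

`k` a field, `W` a Weierstrass curve over `k` with `Δ ≠ 0`, `K ⊇ k` a field and
`j : RatFunc k →+* K` a ring homomorphism compatible with the constants.  For a point `A` of
`W(K)` put `dOf W j A := ht r` if `A ≠ 0` and `x(A) = j r`, and `0` otherwise.  Then on every
subgroup `Λ` of `W(K)` all of whose nonzero points have `x`-coordinate in the image of `j`:

  `dOf (A + B) + dOf (A - B) = 2 * dOf A + 2 * dOf B`       (`par_law`)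

in ALL cases (generic case by `Lib.ECBiquad.ht_add_ht_of_rel`, degenerate cases `A = ±B` by
the duplication lemma `ht_dup`).  No function field, no involution here.
-/
import Fermat.Agent.S58.FT.GenB.Prod
import Fermat.Agent.Lib.ECBiquad.Generic

set_option autoImplicit false

namespace Fermat.Agent.S58.FT.GenB

open WeierstrassCurve Fermat.Agent.Lib.ECBiquad Polynomial
open scoped WeierstrassCurve.Affine

section Ht

variable {k : Type*} [Field k]

/-- Height zero means constant. -/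
theorem ht_eq_zero_iff (f : RatFunc k) : ht f = 0 ↔ ∃ c : k, f = RatFunc.C c := by
  constructor
  · intro h
    have h1 : f.num.natDegree = 0 := by
      have := le_max_left f.num.natDegree f.denom.natDegree
      unfold ht at h; omega
    have h2 : f.denom.natDegree = 0 := by
      have := le_max_right f.num.natDegree f.denom.natDegree
      unfold ht at h; omega
    obtain ⟨a, ha⟩ := natDegree_eq_zero.mp h1
    obtain ⟨b, hb⟩ := natDegree_eq_zero.mp h2
    refine ⟨a / b, ?_⟩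
    have := RatFunc.num_div_denom f
    rw [← this, ← ha, ← hb, RatFunc.algebraMap_C, RatFunc.algebraMap_C, map_div₀]
  · rintro ⟨c, rfl⟩
    simp [ht]

theorem ht_C (c : k) : ht (RatFunc.C c : RatFunc k) = 0 := (ht_eq_zero_iff _).mpr ⟨c, rfl⟩

theorem ht_zero : ht (0 : RatFunc k) = 0 := by
  have := ht_C (0 : k)
  rwa [map_zero] at this

variable (W : WeierstrassCurve k)

/-- **Duplication lemma.**  With `D := F1 (f², 2f, 1)` (the "denominator of `x(2A)`" at
`x(A) = f`) and `N := F0 (f², 2f, 1)`: if `D = 0` then `f` is constant, and if `D ≠ 0` and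
`g · D = N` then `ht g = 4 ht f`. -/
theorem ht_dup (hΔ : W.Δ ≠ 0) (f : RatFunc k) :
    (F1 (RatFunc.C W.b₂) (RatFunc.C W.b₄) (RatFunc.C W.b₆) (f * f) (f + f) 1 = 0 → ht f = 0) ∧
    ∀ g : RatFunc k,
      F1 (RatFunc.C W.b₂) (RatFunc.C W.b₄) (RatFunc.C W.b₆) (f * f) (f + f) 1 ≠ 0 →
      g * F1 (RatFunc.C W.b₂) (RatFunc.C W.b₄) (RatFunc.C W.b₆) (f * f) (f + f) 1 =
        F0 (RatFunc.C W.b₄) (RatFunc.C W.b₆) (RatFunc.C W.b₈) (f * f) (f + f) 1 →
      ht g = 4 * ht f := by
  let ι := algebraMap k[X] (RatFunc k)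
  have hinj : Function.Injective ι := RatFunc.algebraMap_injective k
  have e₁ : ι f.num = f * ι f.denom := algebraMap_num_eq f
  have hcopT : Cop3 (f.num * f.num) (f.num * f.denom + f.denom * f.num) (f.denom * f.denom) :=
    cop3_sym (RatFunc.isCoprime_num_denom f) (RatFunc.isCoprime_num_denom f)
  have hdegT : mdeg3 (f.num * f.num) (f.num * f.denom + f.denom * f.num) (f.denom * f.denom) =
      ht f + ht f :=
    mdeg3_sym (fun h => f.denom_ne_zero h.2) (fun h => f.denom_ne_zero h.2)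
  have hG2 : G2 (f.num * f.num) (f.num * f.denom + f.denom * f.num) (f.denom * f.denom) = 0 := by
    simp only [G2, F2]; ring
  have hcopG := cop3_G W hΔ hcopT
  have hdegG := mdeg3_G W hΔ (f.num * f.num) (f.num * f.denom + f.denom * f.num)
    (f.denom * f.denom)
  rw [hG2] at hcopG hdegG
  rw [mdeg3_zero_right, hdegT] at hdegG
  have hcop : IsCoprime
      (G0 W (f.num * f.num) (f.num * f.denom + f.denom * f.num) (f.denom * f.denom))
      (G1 W (f.num * f.num) (f.num * f.denom + f.denom * f.num) (f.denom * f.denom)) := by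
    obtain ⟨α, β, γ, e⟩ := hcopG
    exact ⟨α, β, by rw [← e]; ring⟩
  have hCb : ∀ c : k, ι (C c) = RatFunc.C c := fun c => RatFunc.algebraMap_C c
  have hb0 : ι f.denom ≠ 0 := RatFunc.algebraMap_ne_zero f.denom_ne_zero
  have h0 : ι (G0 W (f.num * f.num) (f.num * f.denom + f.denom * f.num) (f.denom * f.denom)) =
      (ι f.denom) ^ 4 *
        F0 (RatFunc.C W.b₄) (RatFunc.C W.b₆) (RatFunc.C W.b₈) (f * f) (f + f) 1 := by
    simp only [G0, F0, map_mul, map_add, map_sub, map_pow, hCb, e₁]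
    ring
  have h1 : ι (G1 W (f.num * f.num) (f.num * f.denom + f.denom * f.num) (f.denom * f.denom)) =
      (ι f.denom) ^ 4 *
        F1 (RatFunc.C W.b₂) (RatFunc.C W.b₄) (RatFunc.C W.b₆) (f * f) (f + f) 1 := by
    simp only [G1, F1, map_mul, map_add, map_pow, map_ofNat, hCb, e₁]
    ring
  constructor
  · intro hF1
    rw [hF1, mul_zero] at h1
    have hG1 : G1 W (f.num * f.num) (f.num * f.denom + f.denom * f.num) (f.denom * f.denom) = 0 :=
      hinj (by rw [h1, map_zero])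
    rw [hG1] at hcop hdegG
    have hu : IsUnit
        (G0 W (f.num * f.num) (f.num * f.denom + f.denom * f.num) (f.denom * f.denom)) := by
      obtain ⟨α, β, e⟩ := hcop
      exact IsUnit.of_mul_eq_one _ (by rw [mul_comm]; simpa using e)
    have h3 := natDegree_eq_zero_of_isUnit hu
    rw [h3] at hdegG
    simp only [natDegree_zero, max_self] at hdegG
    omega
  · intro g hF1 hg
    have hG1 : G1 W (f.num * f.num) (f.num * f.denom + f.denom * f.num) (f.denom * f.denom) ≠ 0 := by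
      intro h
      apply hF1
      rw [h, map_zero] at h1
      exact (mul_eq_zero.mp h1.symm).resolve_left (pow_ne_zero 4 hb0)
    have hrep : g = ι (G0 W (f.num * f.num) (f.num * f.denom + f.denom * f.num)
        (f.denom * f.denom)) / ι (G1 W (f.num * f.num) (f.num * f.denom + f.denom * f.num)
        (f.denom * f.denom)) := by
      rw [h0, h1, eq_div_iff (mul_ne_zero (pow_ne_zero 4 hb0) hF1)]
      linear_combination (ι f.denom) ^ 4 * hg
    rw [ht_eq_of_rep hG1 hcop hrep, hdegG]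
    ring

end Ht

section Points

variable {k : Type*} [Field k] (W : WeierstrassCurve k)
  {K : Type*} [Field K] [DecidableEq K] [Algebra k K] (j : RatFunc k →+* K)

open Classical in
/-- The height of the `x`-coordinate of a point: `ht r` if `A ≠ 0` and `x(A) = j r`
(`0` if `A = 0` or if `x(A)` is not in the image of `j`). -/
noncomputable def dOf (A : (W.toAffine⁄K).Point) : ℕ :=
  if h : A ≠ 0 ∧ ∃ r : RatFunc k, xOf (W.toAffine⁄K) A = j r then ht (Classical.choose h.2) else 0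

theorem dOf_zero : dOf W j (0 : (W.toAffine⁄K).Point) = 0 := by
  unfold dOf
  rw [dif_neg]
  exact fun h => h.1 rfl

theorem dOf_eq {A : (W.toAffine⁄K).Point} (hA : A ≠ 0) {r : RatFunc k}
    (hr : xOf (W.toAffine⁄K) A = j r) : dOf W j A = ht r := by
  unfold dOf
  have h : A ≠ 0 ∧ ∃ r : RatFunc k, xOf (W.toAffine⁄K) A = j r := ⟨hA, r, hr⟩
  rw [dif_pos h]
  have := Classical.choose_spec h.2
  exact congrArg ht (j.injective (this.symm.trans hr))

theorem dOf_neg (A : (W.toAffine⁄K).Point) : dOf W j (-A) = dOf W j A := by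
  by_cases hA : A = 0
  · subst hA; rw [neg_zero]
  by_cases h : ∃ r : RatFunc k, xOf (W.toAffine⁄K) A = j r
  · obtain ⟨r, hr⟩ := h
    rw [dOf_eq W j hA hr, dOf_eq W j (neg_ne_zero.mpr hA) (by rw [xOf_neg]; exact hr)]
  · unfold dOf
    rw [dif_neg (fun h' => h (by
        obtain ⟨r, hr⟩ := h'.2
        exact ⟨r, by rw [← hr, xOf_neg]⟩)),
      dif_neg (fun h' => h h'.2)]

variable {W j}

omit [DecidableEq K] [Algebra k K] in
private theorem map_F0 (a b c s t : RatFunc k) :
    j (F0 a b c s t 1) = F0 (j a) (j b) (j c) (j s) (j t) 1 := by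
  simp only [F0, map_sub, map_mul, map_pow, map_one]

omit [DecidableEq K] [Algebra k K] in
private theorem map_F1 (a b c s t : RatFunc k) :
    j (F1 a b c s t 1) = F1 (j a) (j b) (j c) (j s) (j t) 1 := by
  simp only [F1, map_add, map_mul, map_pow, map_one, map_ofNat]

omit [DecidableEq K] [Algebra k K] in
private theorem map_F2 (s t : RatFunc k) : j (F2 s t 1) = F2 (j s) (j t) 1 := by
  simp only [F2, map_sub, map_mul, map_pow, map_one, map_ofNat]

/-- Generic case of the parallelogram law. -/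
theorem par_generic (hΔ : W.Δ ≠ 0) (hj : ∀ c : k, j (RatFunc.C c) = algebraMap k K c)
    {A B : (W.toAffine⁄K).Point} (hA : A ≠ 0) (hB : B ≠ 0) {f g f' g' : RatFunc k}
    (hf : xOf (W.toAffine⁄K) A = j f) (hg : xOf (W.toAffine⁄K) B = j g)
    (hx : xOf (W.toAffine⁄K) A ≠ xOf (W.toAffine⁄K) B)
    (hf' : xOf (W.toAffine⁄K) (A + B) = j f') (hg' : xOf (W.toAffine⁄K) (A - B) = j g') :
    ht f' + ht g' = 2 * (ht f + ht g) := by
  obtain ⟨h₀, h₁⟩ := rel_of_points (W.toAffine⁄K) hA hB hx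
  have hb₂ : (W.toAffine⁄K).b₂ = j (RatFunc.C W.b₂) := by rw [hj]; exact W.map_b₂ _
  have hb₄ : (W.toAffine⁄K).b₄ = j (RatFunc.C W.b₄) := by rw [hj]; exact W.map_b₄ _
  have hb₆ : (W.toAffine⁄K).b₆ = j (RatFunc.C W.b₆) := by rw [hj]; exact W.map_b₆ _
  have hb₈ : (W.toAffine⁄K).b₈ = j (RatFunc.C W.b₈) := by rw [hj]; exact W.map_b₈ _
  refine ht_add_ht_of_rel W hΔ (j.injective ?_) (j.injective ?_)
  · rw [map_mul, map_mul, map_F2, map_F0, map_mul, map_add, ← hf, ← hg, ← hf', ← hg', ← hb₄,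
      ← hb₆, ← hb₈]
    exact h₀
  · rw [map_mul, map_add, map_F2, map_F1, map_mul, map_add, ← hf, ← hg, ← hf', ← hg', ← hb₂,
      ← hb₄, ← hb₆]
    exact h₁

/-- Duplication on points. -/
theorem par_dup (hΔ : W.Δ ≠ 0) (hj : ∀ c : k, j (RatFunc.C c) = algebraMap k K c)
    {A : (W.toAffine⁄K).Point} (hA : A ≠ 0) {f : RatFunc k}
    (hf : xOf (W.toAffine⁄K) A = j f) :
    (A + A = 0 → ht f = 0) ∧
      ∀ g : RatFunc k, A + A ≠ 0 → xOf (W.toAffine⁄K) (A + A) = j g → ht g = 4 * ht f := by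
  have hb₂ : (W.toAffine⁄K).b₂ = j (RatFunc.C W.b₂) := by rw [hj]; exact W.map_b₂ _
  have hb₄ : (W.toAffine⁄K).b₄ = j (RatFunc.C W.b₄) := by rw [hj]; exact W.map_b₄ _
  have hb₆ : (W.toAffine⁄K).b₆ = j (RatFunc.C W.b₆) := by rw [hj]; exact W.map_b₆ _
  have hb₈ : (W.toAffine⁄K).b₈ = j (RatFunc.C W.b₈) := by rw [hj]; exact W.map_b₈ _
  cases A with
  | zero => exact absurd rfl hA
  | some x y h =>
    simp only [xOf_some] at hf
    have hsum : sumNum (W.toAffine⁄K) x x =
        j (F1 (RatFunc.C W.b₂) (RatFunc.C W.b₄) (RatFunc.C W.b₆) (f * f) (f + f) 1) := by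
      rw [map_F1, ← hb₂, ← hb₄, ← hb₆, map_mul, map_add, ← hf]
      simp only [sumNum, F1]; ring
    have hprod : prodNum (W.toAffine⁄K) x x =
        j (F0 (RatFunc.C W.b₄) (RatFunc.C W.b₆) (RatFunc.C W.b₈) (f * f) (f + f) 1) := by
      rw [map_F0, ← hb₄, ← hb₆, ← hb₈, map_mul, map_add, ← hf]
      simp only [prodNum, F0]; ring
    obtain ⟨hd0, hd1⟩ := ht_dup W hΔ f
    constructor
    · intro h2
      apply hd0
      have := (two_nsmul_eq_zero_iff (W.toAffine⁄K) h).mp h2
      rw [hsum] at this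
      exact j.injective (by rw [this, map_zero])
    · intro g h2 hg
      have hs : sumNum (W.toAffine⁄K) x x ≠ 0 := fun h0 =>
        h2 ((two_nsmul_eq_zero_iff (W.toAffine⁄K) h).mpr h0)
      have hF1 : F1 (RatFunc.C W.b₂) (RatFunc.C W.b₄) (RatFunc.C W.b₆) (f * f) (f + f) 1 ≠ 0 := by
        intro h0
        apply hs
        rw [hsum, h0, map_zero]
      apply hd1 g hF1
      apply j.injective
      have := xOf_two_nsmul (W.toAffine⁄K) h hs
      rw [hg, hsum, hprod, eq_div_iff (by rw [← hsum]; exact hs)] at this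
      rw [map_mul, this]

/-- **The parallelogram law** on a subgroup of points whose `x`-coordinates are rational
functions. -/
theorem par_law (hΔ : W.Δ ≠ 0) (hj : ∀ c : k, j (RatFunc.C c) = algebraMap k K c)
    (Λ : AddSubgroup (W.toAffine⁄K).Point)
    (hΛ : ∀ A ∈ Λ, A ≠ 0 → ∃ r : RatFunc k, xOf (W.toAffine⁄K) A = j r)
    {A B : (W.toAffine⁄K).Point} (hA : A ∈ Λ) (hB : B ∈ Λ) :
    dOf W j (A + B) + dOf W j (A - B) = 2 * dOf W j A + 2 * dOf W j B := by
  -- duplication in `dOf` form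
  have hdup : ∀ C ∈ Λ, C ≠ 0 → dOf W j (C + C) = 4 * dOf W j C := by
    intro C hC hC0
    obtain ⟨f, hf⟩ := hΛ C hC hC0
    obtain ⟨hd0, hd1⟩ := par_dup hΔ hj hC0 hf
    rw [dOf_eq W j hC0 hf]
    by_cases h2 : C + C = 0
    · rw [h2, dOf_zero, hd0 h2]
    · obtain ⟨g, hg⟩ := hΛ _ (Λ.add_mem hC hC) h2
      rw [dOf_eq W j h2 hg, hd1 g h2 hg]
  by_cases hA0 : A = 0
  · subst hA0
    rw [zero_add, zero_sub, dOf_neg, dOf_zero]; ring
  by_cases hB0 : B = 0
  · subst hB0
    rw [add_zero, sub_zero, dOf_zero]; ring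
  obtain ⟨f, hf⟩ := hΛ A hA hA0
  obtain ⟨g, hg⟩ := hΛ B hB hB0
  by_cases hx : xOf (W.toAffine⁄K) A = xOf (W.toAffine⁄K) B
  · rcases eq_or_eq_neg_of_xOf_eq (W.toAffine⁄K) hA0 hB0 hx with rfl | rfl
    · rw [sub_self, dOf_zero, hdup A hA hA0]; ring
    · rw [neg_add_cancel, dOf_zero, sub_eq_add_neg, dOf_neg, hdup (-B) hA hA0, dOf_neg]; ring
  · obtain ⟨h1, h2⟩ := add_sub_ne_zero (W.toAffine⁄K) hA0 hB0 hx
    obtain ⟨f', hf'⟩ := hΛ _ (Λ.add_mem hA hB) h1
    obtain ⟨g', hg'⟩ := hΛ _ (Λ.sub_mem hA hB) h2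
    rw [dOf_eq W j h1 hf', dOf_eq W j h2 hg', dOf_eq W j hA0 hf, dOf_eq W j hB0 hg,
      par_generic hΔ hj hA0 hB0 hf hg hx hf' hg']
    ring

end Points

end Fermat.Agent.S58.FT.GenB
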