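/-
S58-PREP row 370 (FT-GEN), shadow by helper63: the concrete degree package.

`k` a field, `W` a Weierstrass curve over `k` with `Δ ≠ 0`, `F = k(W)` its function field
(`W.toAffine.FunctionField`), `ι = Gen.iota W` the hyperelliptic involution (helper32's
`GenField.lean`), `P₀ = Comp.genPt W hΔ` the generic point (helper86's `CompCore.lean`).

* `Lam W`  : the subgroup `{A ∈ E(F) | ι_* A = -A}`;
* `dPt W A`: the height of the `x`-coordinate (`= ht (xr W A)` on `Lam W`), `0` at the origin;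
* `dPt_par` : the parallelogram law on `Lam W` (all cases; from `GenB.par_law`);
* `dPt_genPt`, `dPt_frobPt` : `d P₀ = 1`, `d (φ A) = ℓ d A`;
* `degData hΔ : DegData ℓ` : the full degree package (the field `d_comp` is helper86's
  `Comp.d_comp_of`), with NO remaining hypothesis.
-/
import Fermat.Agent.S58.FT.GenB.Par
import Fermat.Agent.S58.FT.GenField
import Fermat.Agent.S58.FT.Comp

set_option autoImplicit false

namespace Fermat.Agent.S58.FT.GenB

open WeierstrassCurve Fermat.Agent.Lib.ECBiquad Polynomial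
open scoped WeierstrassCurve.Affine Polynomial.Bivariate

noncomputable section

section Ht

variable {k : Type*} [Field k]

theorem ht_pow (r : RatFunc k) (n : ℕ) : ht (r ^ n) = n * ht r := by
  have hrep : r ^ n = algebraMap k[X] (RatFunc k) (r.num ^ n) /
      algebraMap k[X] (RatFunc k) (r.denom ^ n) := by
    rw [map_pow, map_pow, ← div_pow, RatFunc.num_div_denom]
  rw [ht_eq_of_rep (pow_ne_zero n r.denom_ne_zero)
    (IsCoprime.pow (RatFunc.isCoprime_num_denom r)) hrep, natDegree_pow, natDegree_pow, ht,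
    Nat.mul_max_mul_left]

end Ht

section General

variable {k : Type*} [Field k] (W : WeierstrassCurve k)

theorem xF_eq : Gen.xF W = Comp.xF W := by
  rw [Gen.xF, Comp.xF,
    IsScalarTower.algebraMap_apply k[X] W.toAffine.CoordinateRing W.toAffine.FunctionField]
  rfl

theorem yF_eq : Gen.yF W = Comp.yF W := rfl

theorem xEmb_eq : Gen.xEmb W = Comp.ratIncl W :=
  Comp.eq_ratIncl W (Gen.xEmb W) (by rw [Gen.xEmb_X, xF_eq])

/-- The embedding `k(x) → F` as a ring homomorphism. -/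
def jF : RatFunc k →+* W.toAffine.FunctionField := (Comp.ratIncl W).toRingHom

theorem jF_apply (r : RatFunc k) : jF W r = Comp.ratIncl W r := rfl

theorem jF_C (c : k) : jF W (RatFunc.C c) = algebraMap k W.toAffine.FunctionField c := by
  rw [jF_apply, ← xEmb_eq, Gen.xEmb_C]

theorem jF_X : jF W RatFunc.X = Comp.xF W := Comp.ratIncl_X W

theorem iota_ratIncl (r : RatFunc k) : Gen.iota W (Comp.ratIncl W r) = Comp.ratIncl W r := by
  rw [← xEmb_eq, Gen.iota_xEmb]

theorem exists_ratIncl_eq_of_iota_eq (hΔ : W.Δ ≠ 0) {z : W.toAffine.FunctionField}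
    (h : Gen.iota W z = z) : ∃ r : RatFunc k, z = Comp.ratIncl W r := by
  obtain ⟨r, hr⟩ := Gen.exists_xEmb_eq_of_iota_eq W hΔ h
  exact ⟨r, by rw [← xEmb_eq, hr]⟩

variable [DecidableEq W.toAffine.FunctionField]

/-- The group of points of `W` over its function field. -/
abbrev EF : Type _ := (W.toAffine⁄W.toAffine.FunctionField).Point

/-- The involution on points. -/
def iotaPt : EF W →+ EF W := Affine.Point.map (W' := W.toAffine) (Gen.iota W)

/-- `Λ`: the anti-invariant points `ι_* A = -A`. -/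
def Lam : AddSubgroup (EF W) := (iotaPt W + AddMonoidHom.id (EF W)).ker

theorem mem_Lam {A : EF W} : A ∈ Lam W ↔ iotaPt W A = -A := by
  rw [Lam, AddMonoidHom.mem_ker, AddMonoidHom.add_apply, AddMonoidHom.id_apply,
    add_eq_zero_iff_eq_neg]

/-- Nonzero points of `Λ` have `x`-coordinate in `k(x)`. -/
theorem exists_hasX_of_mem_Lam (hΔ : W.Δ ≠ 0) {A : EF W} (hA : A ∈ Lam W) (hA0 : A ≠ 0) :
    ∃ r : RatFunc k, Comp.HasX W A r := by
  cases A with
  | zero => exact absurd rfl hA0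
  | some x y h =>
    rw [mem_Lam, iotaPt, Affine.Point.map_some, Affine.Point.neg_some] at hA
    have hx : Gen.iota W x = x := ((Affine.Point.some.injEq _ _ _ _ _ _).mp hA).1
    obtain ⟨r, hr⟩ := exists_ratIncl_eq_of_iota_eq W hΔ hx
    exact ⟨r, Comp.hasX_of_x_eq W h hr⟩

omit [DecidableEq W.toAffine.FunctionField] in
theorem xOf_eq_of_hasX {A : EF W} {r : RatFunc k} (h : Comp.HasX W A r) :
    xOf (W.toAffine⁄W.toAffine.FunctionField) A = jF W r := by
  obtain ⟨y, hy, rfl⟩ := h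
  rfl

/-- The degree: the height of the `x`-coordinate. -/
def dPt (A : EF W) : ℤ := (dOf W (jF W) A : ℤ)

theorem dPt_zero : dPt W 0 = 0 := by
  unfold dPt
  rw [dOf_zero]
  rfl

theorem dPt_nonneg (A : EF W) : 0 ≤ dPt W A := Int.natCast_nonneg _

theorem dPt_neg (A : EF W) : dPt W (-A) = dPt W A := by
  unfold dPt
  rw [dOf_neg]

theorem dPt_of_hasX {A : EF W} {r : RatFunc k} (h : Comp.HasX W A r) :
    dPt W A = (ht r : ℤ) := by
  unfold dPt
  rw [dOf_eq W (jF W) (Comp.HasX.ne_zero W h) (xOf_eq_of_hasX W h)]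

/-- **The parallelogram law on `Λ`** (all cases). -/
theorem dPt_par (hΔ : W.Δ ≠ 0) {A B : EF W} (hA : A ∈ Lam W) (hB : B ∈ Lam W) :
    dPt W (A + B) + dPt W (A - B) = 2 * dPt W A + 2 * dPt W B := by
  have := par_law hΔ (jF_C W) (Lam W) (fun C hC hC0 => by
    obtain ⟨r, hr⟩ := exists_hasX_of_mem_Lam W hΔ hC hC0
    exact ⟨r, xOf_eq_of_hasX W hr⟩) hA hB
  unfold dPt
  exact_mod_cast this

theorem dPt_add_self (hΔ : W.Δ ≠ 0) {A : EF W} (hA : A ∈ Lam W) :
    dPt W (A + A) = 4 * dPt W A := by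
  have := dPt_par W hΔ hA hA
  rw [sub_self, dPt_zero] at this
  linarith

theorem genPt_mem_Lam (hΔ : W.Δ ≠ 0) : Comp.genPt W hΔ ∈ Lam W := by
  have hx : Gen.iota W (Comp.xF W) = Comp.xF W := by rw [← xF_eq]; exact Gen.iota_xF W
  have hy : Gen.iota W (Comp.yF W) =
      (W.toAffine⁄W.toAffine.FunctionField).negY (Comp.xF W) (Comp.yF W) := by
    have hC : ∀ c : k, algebraMap k[X] W.toAffine.FunctionField (C c) =
        algebraMap k W.toAffine.FunctionField c := fun c => by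
      rw [← Polynomial.algebraMap_eq, ← IsScalarTower.algebraMap_apply]
    rw [← yF_eq, Gen.iota_yF, Affine.negY, Gen.cPoly, map_add, map_mul, hC, hC, ← xF_eq, Gen.xF]
    simp only [WeierstrassCurve.Affine.baseChange, WeierstrassCurve.baseChange,
      WeierstrassCurve.map_a₁, WeierstrassCurve.map_a₃]
    ring
  rw [mem_Lam, Comp.genPt, iotaPt, Affine.Point.map_some, Affine.Point.neg_some]
  simp only [Affine.Point.some.injEq]
  exact ⟨hx, hy⟩

theorem dPt_genPt (hΔ : W.Δ ≠ 0) : dPt W (Comp.genPt W hΔ) = 1 := by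
  rw [dPt_of_hasX W (Comp.hasX_genPt W hΔ), ht_X]
  rfl

open Classical in
/-- The rational function `xr A ∈ k(X)` with `x(A) = (xr A)(x)` (junk value `0` if there is
none, in particular `xr 0 = 0`). -/
def xr (A : EF W) : RatFunc k :=
  if h : ∃ r : RatFunc k, Comp.HasX W A r then Classical.choose h else 0

theorem xr_eq_of_hasX {A : EF W} {r : RatFunc k} (h : Comp.HasX W A r) : xr W A = r := by
  have h' : ∃ r : RatFunc k, Comp.HasX W A r := ⟨r, h⟩
  unfold xr
  rw [dif_pos h']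
  exact Comp.HasX.unique W (Classical.choose_spec h') h

theorem xr_zero : xr W (0 : EF W) = 0 := by
  unfold xr
  rw [dif_neg]
  rintro ⟨r, hr⟩
  exact Comp.HasX.ne_zero W hr rfl

theorem hasX_xr (hΔ : W.Δ ≠ 0) {A : EF W} (hA : A ∈ Lam W) (hA0 : A ≠ 0) :
    Comp.HasX W A (xr W A) := by
  obtain ⟨r, hr⟩ := exists_hasX_of_mem_Lam W hΔ hA hA0
  rw [xr_eq_of_hasX W hr]
  exact hr

/-- `x(A) = (xr A)(x)` on `Λ` (with the convention `x(0) = 0`). -/
theorem ratIncl_xr (hΔ : W.Δ ≠ 0) {A : EF W} (hA : A ∈ Lam W) :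
    Comp.ratIncl W (xr W A) = xOf (W.toAffine⁄W.toAffine.FunctionField) A := by
  by_cases hA0 : A = 0
  · subst hA0
    rw [xr_zero, map_zero]
    rfl
  · exact (xOf_eq_of_hasX W (hasX_xr W hΔ hA hA0)).symm

theorem dPt_eq_ht_xr (hΔ : W.Δ ≠ 0) {A : EF W} (hA : A ∈ Lam W) :
    dPt W A = (ht (xr W A) : ℤ) := by
  by_cases hA0 : A = 0
  · subst hA0
    rw [xr_zero, dPt_zero, ht_zero]
    rfl
  · exact dPt_of_hasX W (hasX_xr W hΔ hA hA0)

theorem dPt_eq_zero_iff (hΔ : W.Δ ≠ 0) {A : EF W} (hA : A ∈ Lam W) :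
    dPt W A = 0 ↔ A = 0 ∨ ∃ c : k, xr W A = RatFunc.C c := by
  rw [dPt_eq_ht_xr W hΔ hA]
  constructor
  · intro h
    right
    exact (ht_eq_zero_iff _).mp (by exact_mod_cast h)
  · rintro (rfl | hc)
    · rw [xr_zero, ht_zero]; rfl
    · exact_mod_cast (ht_eq_zero_iff _).mpr hc

end General

section Frob

variable (ℓ : ℕ) [Fact ℓ.Prime] (W : WeierstrassCurve (ZMod ℓ))
  [DecidableEq W.toAffine.FunctionField]

theorem frobPt_mem_Lam {A : EF W} (hA : A ∈ Lam W) :
    frobPt ℓ W W.toAffine.FunctionField A ∈ Lam W := by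
  rw [mem_Lam] at hA ⊢
  have h : iotaPt W (frobPt ℓ W W.toAffine.FunctionField A) =
      frobPt ℓ W W.toAffine.FunctionField (iotaPt W A) := Comp.map_frobPt ℓ W (Gen.iota W) A
  rw [h, hA, map_neg]

theorem hasX_frobPt {A : EF W} {r : RatFunc (ZMod ℓ)} (h : Comp.HasX W A r) :
    Comp.HasX W (frobPt ℓ W W.toAffine.FunctionField A) (r ^ ℓ) := by
  obtain ⟨y, hy, rfl⟩ := h
  unfold frobPt
  rw [Affine.Point.map_some]
  apply Comp.hasX_of_x_eq
  rw [map_pow, FiniteField.coe_frobeniusAlgHom, ZMod.card]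

theorem dPt_frobPt (hΔ : W.Δ ≠ 0) {A : EF W} (hA : A ∈ Lam W) :
    dPt W (frobPt ℓ W W.toAffine.FunctionField A) = ℓ * dPt W A := by
  by_cases hA0 : A = 0
  · subst hA0
    rw [map_zero, dPt_zero, mul_zero]
  obtain ⟨r, hr⟩ := exists_hasX_of_mem_Lam W hΔ hA hA0
  rw [dPt_of_hasX W (hasX_frobPt ℓ W hr), dPt_of_hasX W hr, ht_pow]
  push_cast
  ring

/-- Frobenius restricted to `Λ`. -/
def frobLam : Lam W →+ Lam W :=
  ((frobPt ℓ W W.toAffine.FunctionField).comp (Lam W).subtype).codRestrict (Lam W)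
    (fun A => frobPt_mem_Lam ℓ W A.2)

theorem coe_frobLam (A : Lam W) :
    ((frobLam ℓ W A : Lam W) : EF W) = frobPt ℓ W W.toAffine.FunctionField (A : EF W) := rfl

/-- The field `d_comp` for our package (helper86's `Comp.d_comp_of`). -/
theorem dPt_comp (hΔ : W.Δ ≠ 0) :
    dPt W (frobPt ℓ W W.toAffine.FunctionField
          (frobPt ℓ W W.toAffine.FunctionField (Comp.genPt W hΔ) + Comp.genPt W hΔ) +
        (frobPt ℓ W W.toAffine.FunctionField (Comp.genPt W hΔ) + Comp.genPt W hΔ)) =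
      dPt W (frobPt ℓ W W.toAffine.FunctionField (Comp.genPt W hΔ) + Comp.genPt W hΔ) ^ 2 :=
  Comp.d_comp_of ℓ W (Lam W) (dPt W) hΔ
    (fun A hA hA0 => by
      obtain ⟨r, hr⟩ := exists_hasX_of_mem_Lam W hΔ hA hA0
      exact ⟨r, hr, dPt_of_hasX W hr⟩)
    (dPt_zero W) (fun A hA => dPt_add_self W hΔ hA) (fun A hA => frobPt_mem_Lam ℓ W hA)
    (genPt_mem_Lam W hΔ)

/-- **The degree package of row 370** (no remaining hypothesis): `G = Λ`, `d = dPt`,
`P0 =` the generic point, `φ =` Frobenius. -/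
def degData (hΔ : W.Δ ≠ 0) : DegData ℓ where
  G := Lam W
  d := fun A => dPt W (A : EF W)
  P0 := ⟨Comp.genPt W hΔ, genPt_mem_Lam W hΔ⟩
  φ := frobLam ℓ W
  d_nonneg := fun A => dPt_nonneg W A
  d_zero := dPt_zero W
  par := fun A B => dPt_par W hΔ A.2 B.2
  d_P0 := dPt_genPt W hΔ
  d_φ := fun A => dPt_frobPt ℓ W hΔ A.2
  d_comp := dPt_comp ℓ W hΔ

end Frob

end

end Fermat.Agent.S58.FT.GenB
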