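/-
S58-PREP row 370 (FT-GEN), shadow by helper63: the quadratic-form algebra (helper26's
`Alg.degAlgebra`) unpacked on the concrete package `GenB.degData`, as statements about points
of `E(F)` (no subtypes):

* `trF ℓ W hΔ : ℤ := d (φ P₀ + P₀) - ℓ - 1`;
* `dPt_quad`           : `d (φ² P₀ - trF • φ P₀ + ℓ • P₀) = 0`;
* `dPt_frob_sub_zsmul` : `d (φ P₀ - m • P₀) = m² - trF m + ℓ`;
* `trF_sq_le`          : `trF² ≤ 4 ℓ`;
* membership of these points in `Lam W`, and `x`-coordinates of the points `φ P₀ - m • P₀`.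
-/
import Fermat.Agent.S58.FT.GenB.Deg
import Fermat.Agent.S58.FT.Alg

set_option autoImplicit false

namespace Fermat.Agent.S58.FT.GenB

open WeierstrassCurve Fermat.Agent.Lib.ECBiquad Polynomial
open scoped WeierstrassCurve.Affine

noncomputable section

variable (ℓ : ℕ) [Fact ℓ.Prime] (W : WeierstrassCurve (ZMod ℓ))
  [DecidableEq W.toAffine.FunctionField]

/-- The trace of Frobenius, read off the degree function. -/
def trF (hΔ : W.Δ ≠ 0) : ℤ :=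
  dPt W (frobPt ℓ W W.toAffine.FunctionField (Comp.genPt W hΔ) + Comp.genPt W hΔ) - ℓ - 1

theorem tr_degData (hΔ : W.Δ ≠ 0) : (degData ℓ W hΔ).tr = trF ℓ W hΔ := rfl

theorem frob_genPt_mem_Lam (hΔ : W.Δ ≠ 0) :
    frobPt ℓ W W.toAffine.FunctionField (Comp.genPt W hΔ) ∈ Lam W :=
  frobPt_mem_Lam ℓ W (genPt_mem_Lam W hΔ)

/-- The point `φ² P₀ - trF • φ P₀ + ℓ • P₀`. -/
def quadPt (hΔ : W.Δ ≠ 0) : EF W :=
  frobPt ℓ W W.toAffine.FunctionField (frobPt ℓ W W.toAffine.FunctionField (Comp.genPt W hΔ)) -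
    trF ℓ W hΔ • frobPt ℓ W W.toAffine.FunctionField (Comp.genPt W hΔ) +
    (ℓ : ℤ) • Comp.genPt W hΔ

theorem quadPt_mem_Lam (hΔ : W.Δ ≠ 0) : quadPt ℓ W hΔ ∈ Lam W :=
  (Lam W).add_mem
    ((Lam W).sub_mem (frobPt_mem_Lam ℓ W (frob_genPt_mem_Lam ℓ W hΔ))
      ((Lam W).zsmul_mem (frob_genPt_mem_Lam ℓ W hΔ) _))
    ((Lam W).zsmul_mem (genPt_mem_Lam W hΔ) _)

/-- `d (φ² P₀ - trF • φ P₀ + ℓ • P₀) = 0`. -/
theorem dPt_quad (hΔ : W.Δ ≠ 0) : dPt W (quadPt ℓ W hΔ) = 0 :=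
  (Alg.degAlgebra ℓ (degData ℓ W hΔ)).1

/-- So `φ² P₀ - trF • φ P₀ + ℓ • P₀` is `0` or has constant `x`-coordinate. -/
theorem quadPt_eq_zero_or (hΔ : W.Δ ≠ 0) :
    quadPt ℓ W hΔ = 0 ∨ ∃ c : ZMod ℓ, Comp.HasX W (quadPt ℓ W hΔ) (RatFunc.C c) := by
  by_cases h0 : quadPt ℓ W hΔ = 0
  · exact Or.inl h0
  · right
    rcases (dPt_eq_zero_iff W hΔ (quadPt_mem_Lam ℓ W hΔ)).mp (dPt_quad ℓ W hΔ) with h | ⟨c, hc⟩
    · exact absurd h h0
    · exact ⟨c, hc ▸ hasX_xr W hΔ (quadPt_mem_Lam ℓ W hΔ) h0⟩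

theorem frob_sub_zsmul_mem_Lam (hΔ : W.Δ ≠ 0) (m : ℤ) :
    frobPt ℓ W W.toAffine.FunctionField (Comp.genPt W hΔ) - m • Comp.genPt W hΔ ∈ Lam W :=
  (Lam W).sub_mem (frob_genPt_mem_Lam ℓ W hΔ) ((Lam W).zsmul_mem (genPt_mem_Lam W hΔ) _)

/-- `d (φ P₀ - m • P₀) = m² - trF m + ℓ`. -/
theorem dPt_frob_sub_zsmul (hΔ : W.Δ ≠ 0) (m : ℤ) :
    dPt W (frobPt ℓ W W.toAffine.FunctionField (Comp.genPt W hΔ) - m • Comp.genPt W hΔ) =
      m ^ 2 - trF ℓ W hΔ * m + ℓ :=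
  (Alg.degAlgebra ℓ (degData ℓ W hΔ)).2.1 m

/-- The Hasse bound for the trace read off the degree. -/
theorem trF_sq_le (hΔ : W.Δ ≠ 0) : trF ℓ W hΔ ^ 2 ≤ 4 * ℓ :=
  (Alg.degAlgebra ℓ (degData ℓ W hΔ)).2.2

/-- `m² - trF m + ℓ ≥ 1` (as `ℓ` is not a square). -/
theorem one_le_quad (hΔ : W.Δ ≠ 0) (m : ℤ) : 1 ≤ m ^ 2 - trF ℓ W hΔ * m + ℓ := by
  have h := trF_sq_le ℓ W hΔ
  have h0 : 0 ≤ m ^ 2 - trF ℓ W hΔ * m + ℓ := by nlinarith [sq_nonneg (2 * m - trF ℓ W hΔ)]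
  rcases h0.lt_or_eq with h1 | h1
  · omega
  · exfalso
    -- then `(2m - t)² = t² - 4ℓ ≤ 0`, so `t = 2m` and `ℓ = m²`
    have h2 : (2 * m - trF ℓ W hΔ) ^ 2 = trF ℓ W hΔ ^ 2 - 4 * ℓ := by linear_combination (-4 : ℤ) * h1
    have h3 : (2 * m - trF ℓ W hΔ) ^ 2 = 0 := le_antisymm (by rw [h2]; linarith) (sq_nonneg _)
    have h4 : trF ℓ W hΔ = 2 * m := by
      have := pow_eq_zero_iff (two_ne_zero) |>.mp h3
      linarith
    have h5 : (ℓ : ℤ) = m ^ 2 := by rw [h4] at h1; linarith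
    have hp : Nat.Prime ℓ := Fact.out
    have h6 : (ℓ : ℤ) = (m.natAbs : ℤ) ^ 2 := by rw [h5, Int.natAbs_sq]
    have h7 : ℓ = m.natAbs ^ 2 := by exact_mod_cast h6
    have h8 : m.natAbs ∣ ℓ := ⟨m.natAbs, by rw [h7]; ring⟩
    rcases (Nat.dvd_prime hp).mp h8 with h9 | h9
    · rw [h9] at h7; exact hp.ne_one (by simpa using h7)
    · rw [h9] at h7
      have : ℓ = 1 := by nlinarith [hp.two_le]
      exact hp.ne_one this

/-- The points `φ P₀ - m • P₀` are nonzero, with non-constant `x`-coordinate `xr` of height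
`m² - trF m + ℓ`. -/
theorem frob_sub_zsmul_ne_zero (hΔ : W.Δ ≠ 0) (m : ℤ) :
    frobPt ℓ W W.toAffine.FunctionField (Comp.genPt W hΔ) - m • Comp.genPt W hΔ ≠ 0 := by
  intro h0
  have h := dPt_frob_sub_zsmul ℓ W hΔ m
  rw [h0, dPt_zero] at h
  have := one_le_quad ℓ W hΔ m
  omega

theorem exists_hasX_frob_sub_zsmul (hΔ : W.Δ ≠ 0) (m : ℤ) :
    ∃ r : RatFunc (ZMod ℓ),
      Comp.HasX W
        (frobPt ℓ W W.toAffine.FunctionField (Comp.genPt W hΔ) - m • Comp.genPt W hΔ) r ∧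
      (ht r : ℤ) = m ^ 2 - trF ℓ W hΔ * m + ℓ := by
  obtain ⟨r, hr⟩ := exists_hasX_of_mem_Lam W hΔ (frob_sub_zsmul_mem_Lam ℓ W hΔ m)
    (frob_sub_zsmul_ne_zero ℓ W hΔ m)
  exact ⟨r, hr, by rw [← dPt_of_hasX W hr, dPt_frob_sub_zsmul]⟩

/-! ### Frobenius is injective and reflects `Λ`; the generic point is not in its image -/

theorem frobPt_injective :
    Function.Injective (frobPt ℓ W W.toAffine.FunctionField) :=
  Affine.Point.map_injective _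

theorem mem_Lam_of_frobPt_mem {C : EF W}
    (h : frobPt ℓ W W.toAffine.FunctionField C ∈ Lam W) : C ∈ Lam W := by
  rw [mem_Lam] at h ⊢
  apply frobPt_injective ℓ W
  have h' : iotaPt W (frobPt ℓ W W.toAffine.FunctionField C) =
      frobPt ℓ W W.toAffine.FunctionField (iotaPt W C) := Comp.map_frobPt ℓ W (Gen.iota W) C
  rw [← h', h, map_neg]

/-- For `ℓ ∤ m`, the point `m • P₀` is not in the image of Frobenius. -/
theorem zsmul_genPt_ne_frobPt (hΔ : W.Δ ≠ 0) {m : ℤ} (hm : ¬ (ℓ : ℤ) ∣ m) (C : EF W) :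
    frobPt ℓ W W.toAffine.FunctionField C ≠ m • Comp.genPt W hΔ := by
  intro h
  have hmem : m • Comp.genPt W hΔ ∈ Lam W := (Lam W).zsmul_mem (genPt_mem_Lam W hΔ) m
  have hC : C ∈ Lam W := mem_Lam_of_frobPt_mem ℓ W (h ▸ hmem)
  have h1 := dPt_frobPt ℓ W hΔ hC
  rw [h] at h1
  have h2 : dPt W (m • Comp.genPt W hΔ) = m ^ 2 := by
    have := Alg.d_zsmul (degData ℓ W hΔ).par (degData ℓ W hΔ).d_zero m (degData ℓ W hΔ).P0
    rw [(degData ℓ W hΔ).d_P0, mul_one] at this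
    exact this
  rw [h2] at h1
  have hp : Prime (ℓ : ℤ) := Nat.prime_iff_prime_int.mp Fact.out
  exact hm (hp.dvd_of_dvd_pow ⟨_, h1⟩)

/-- The generic point is not in the image of Frobenius. -/
theorem genPt_ne_frobPt (hΔ : W.Δ ≠ 0) (C : EF W) :
    frobPt ℓ W W.toAffine.FunctionField C ≠ Comp.genPt W hΔ := by
  have hp : Nat.Prime ℓ := Fact.out
  have h1 : ¬ (ℓ : ℤ) ∣ 1 := fun h => by
    have := Int.le_of_dvd one_pos h
    have := hp.two_le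
    omega
  have := zsmul_genPt_ne_frobPt ℓ W hΔ h1 C
  rwa [one_zsmul] at this

/-- **Separability input for (COUNT)**: for `ℓ ∤ m`, the point `φ P₀ - m • P₀` is not in the
image of Frobenius. -/
theorem frob_sub_zsmul_ne_frobPt (hΔ : W.Δ ≠ 0) {m : ℤ} (hm : ¬ (ℓ : ℤ) ∣ m) (C : EF W) :
    frobPt ℓ W W.toAffine.FunctionField C ≠
      frobPt ℓ W W.toAffine.FunctionField (Comp.genPt W hΔ) - m • Comp.genPt W hΔ := by
  intro h
  apply zsmul_genPt_ne_frobPt ℓ W hΔ hm (Comp.genPt W hΔ - C)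
  rw [map_sub, h]
  abel

end

end Fermat.Agent.S58.FT.GenB
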